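import Mathlib.Data.Nat.Digits.Lemmas
import Mathlib.Data.Finset.Card
import Mathlib.Algebra.BigOperators.Group.Finset.Piecewise

/-!
# Gaps in expansions

Below the leading digit there are few non-zero ones, so some interval `(P ^ j, P ^ (j + 1)]` of
distances from it is free of them in both bases.
-/

set_option autoImplicit false

namespace FA.StewartDigits

open Finset

/-- The number of nonzero digits. -/
def nonzeroCount (a n : ℕ) : ℕ := ((Nat.digits a n).filter (· ≠ 0)).length

/-- The positions of the nonzero digits. -/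
def digitPos (a n : ℕ) : Finset ℕ :=
  (range (Nat.log a n + 1)).filter fun i => n / a ^ i % a ≠ 0

theorem nonzeroCount_eq_sum {a : ℕ} (ha : 2 ≤ a) : ∀ (N n : ℕ), n < a ^ N →
    nonzeroCount a n = ∑ i ∈ range N, if n / a ^ i % a ≠ 0 then 1 else 0 := by
  intro N
  induction N with
  | zero =>
    intro n hn
    rw [pow_zero, Nat.lt_one_iff] at hn
    simp [hn, nonzeroCount]
  | succ N ih =>
    intro n hn
    rcases Nat.eq_zero_or_pos n with rfl | hn0
    · simp [nonzeroCount]
    have h1 := ih (n / a) (Nat.div_lt_of_lt_mul (by rwa [← pow_succ']))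
    have h2 : ∀ i, n / a / a ^ i = n / a ^ (i + 1) := fun i => by
      rw [Nat.div_div_eq_div_mul, pow_succ']
    simp only [h2] at h1
    rw [sum_range_succ', ← h1, pow_zero, Nat.div_one, nonzeroCount, nonzeroCount,
      Nat.digits_def' ha hn0, List.filter_cons]
    by_cases hd : n % a = 0 <;> simp [hd]

theorem card_digitPos {a : ℕ} (ha : 2 ≤ a) (n : ℕ) : #(digitPos a n) = nonzeroCount a n := by
  rw [nonzeroCount_eq_sum ha _ n (Nat.lt_pow_succ_log_self ha n), digitPos, card_filter]

theorem log_mem_digitPos {a n : ℕ} (ha : 2 ≤ a) (hn : n ≠ 0) : Nat.log a n ∈ digitPos a n := by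
  refine mem_filter.2 ⟨mem_range.2 (Nat.lt_succ_self _), ?_⟩
  have h1 : 0 < n / a ^ Nat.log a n :=
    Nat.div_pos (Nat.pow_log_le_self a hn) (pow_pos (by omega) _)
  have h2 : n / a ^ Nat.log a n < a :=
    Nat.div_lt_of_lt_mul (by rw [← pow_succ]; exact Nat.lt_pow_succ_log_self ha n)
  rw [Nat.mod_eq_of_lt h2]
  omega

/-- No nonzero digit at the positions from `s` to `t`: the tail is short. -/
theorem mod_lt_of_gap {a n s : ℕ} (ha : 2 ≤ a) :
    ∀ t, (∀ i, s ≤ i → i < t → n / a ^ i % a = 0) → n % a ^ t < a ^ s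
  | 0, _ => by rw [pow_zero, Nat.mod_one]; exact pow_pos (by omega) _
  | t + 1, h => by
    rcases Nat.lt_or_ge t s with hts | hts
    · exact (Nat.mod_lt _ (pow_pos (by omega) _)).trans_le (Nat.pow_le_pow_right (by omega) hts)
    · rw [Nat.mod_pow_succ, h t hts (Nat.lt_succ_self t), mul_zero, add_zero]
      exact mod_lt_of_gap ha t fun i h1 h2 => h i h1 (by omega)

/-- A gap in both expansions. -/
theorem exists_gap {a b n P : ℕ} (ha : 2 ≤ a) (hb : 2 ≤ b) (hn : n ≠ 0) (hP : 2 ≤ P) :
    ∃ j, j < nonzeroCount a n + nonzeroCount b n - 1 ∧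
      (∀ i, Nat.log a n - P ^ (j + 1) ≤ i → i < Nat.log a n - P ^ j → n / a ^ i % a = 0) ∧
      (∀ i, Nat.log b n - P ^ (j + 1) ≤ i → i < Nat.log b n - P ^ j → n / b ^ i % b = 0) := by
  obtain ⟨T, hT⟩ : ∃ T, T = ((digitPos a n).erase (Nat.log a n)).image (Nat.log a n - ·) ∪
      ((digitPos b n).erase (Nat.log b n)).image (Nat.log b n - ·) := ⟨_, rfl⟩
  have hTc : #T + 2 ≤ nonzeroCount a n + nonzeroCount b n := by
    rw [← card_digitPos ha, ← card_digitPos hb, hT,
      ← card_erase_add_one (log_mem_digitPos ha hn), ← card_erase_add_one (log_mem_digitPos hb hn)]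
    have h1 := card_union_le (((digitPos a n).erase (Nat.log a n)).image (Nat.log a n - ·))
      (((digitPos b n).erase (Nat.log b n)).image (Nat.log b n - ·))
    have h2 := card_image_le (s := (digitPos a n).erase (Nat.log a n)) (f := (Nat.log a n - ·))
    have h3 := card_image_le (s := (digitPos b n).erase (Nat.log b n)) (f := (Nat.log b n - ·))
    omega
  have hfree : ∃ j, j < nonzeroCount a n + nonzeroCount b n - 1 ∧
      ∀ δ ∈ T, ¬ (P ^ j < δ ∧ δ ≤ P ^ (j + 1)) := by
    by_contra hall
    push Not at hall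
    choose f hf1 hf2 hf3 using hall
    have hcard : #(range (nonzeroCount a n + nonzeroCount b n - 1)) ≤ #T := by
      refine card_le_card_of_injOn
        (fun j => if h : j < nonzeroCount a n + nonzeroCount b n - 1 then f j h else 0)
        (fun j hj => ?_) fun x hx y hy he => ?_
      · rw [Finset.coe_range, Set.mem_Iio] at hj
        simp only [dif_pos hj, Finset.mem_coe]
        exact hf1 j hj
      · rw [Finset.coe_range, Set.mem_Iio] at hx hy
        simp only [dif_pos hx, dif_pos hy] at he
        rcases lt_trichotomy x y with hlt | rfl | hlt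
        · exact absurd ((hf3 x hx).trans (Nat.pow_le_pow_right (by omega) hlt))
            (not_le.2 (he ▸ hf2 y hy))
        · rfl
        · exact absurd ((hf3 y hy).trans (Nat.pow_le_pow_right (by omega) hlt))
            (not_le.2 (he ▸ hf2 x hx))
    rw [card_range] at hcard
    omega
  obtain ⟨j, hj, hfree⟩ := hfree
  refine ⟨j, hj, fun i h1 h2 => ?_, fun i h1 h2 => ?_⟩
  · by_contra hne
    refine hfree (Nat.log a n - i) ?_ (by omega)
    rw [hT]
    exact mem_union_left _ (mem_image.2 ⟨i, mem_erase.2 ⟨by omega,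
      mem_filter.2 ⟨mem_range.2 (by omega), hne⟩⟩, rfl⟩)
  · by_contra hne
    refine hfree (Nat.log b n - i) ?_ (by omega)
    rw [hT]
    exact mem_union_right _ (mem_image.2 ⟨i, mem_erase.2 ⟨by omega,
      mem_filter.2 ⟨mem_range.2 (by omega), hne⟩⟩, rfl⟩)

end FA.StewartDigits
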