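import Fermat.Agent.Root.SummaryBakerLastHeight
import Fermat.Agent.StewartDigits.Gap
import Mathlib.NumberTheory.Height.NumberField

/-!
# The linear form of two expansions with a common gap

`log A + M log a` and `log B + L log b` differ by less than `2 ^ -P'`; the height of `A / B` is of
the size of the shorter length `J`, in which Baker's bound is linear.
-/

set_option autoImplicit false

noncomputable section

namespace FA.StewartDigits

open Real BakerLastHeight

/-- The coefficient of the last height. -/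
def formBound (H m : ℕ) : ℕ := (lastHeightConst 2 1 * (2 * H + m + 1)) ^ lastHeightKappa 2

/-- The ratio of the gaps. -/
def gapRatio (a b m : ℕ) : ℕ := 2 * formBound (a + b) m + 4 * (a + b) ^ 2 + 4

theorem log_le_mul {A a k H : ℕ} (hA : 0 < A) (haH : a ≤ H) (h : A ≤ a ^ k) :
    log (A : ℝ) ≤ ((k * H : ℕ) : ℝ) := by
  have h1 : log (A : ℝ) ≤ log ((a : ℝ) ^ k) :=
    log_le_log (by exact_mod_cast hA) (by exact_mod_cast h)
  rw [log_pow] at h1
  have h2 : log (a : ℝ) ≤ (H : ℝ) :=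
    (log_le_self (Nat.cast_nonneg a)).trans (Nat.cast_le.2 haH)
  push_cast
  exact h1.trans (mul_le_mul_of_nonneg_left h2 (Nat.cast_nonneg _))

/-- Baker's theorem for the form. -/
theorem form_lower {a b A B M L J m : ℕ} (ha : 2 ≤ a) (hb : 2 ≤ b) (hA : 0 < A) (hB : 0 < B)
    (hAJ : A ≤ a ^ (J + 1)) (hBJ : B ≤ b ^ (J + 1)) (hM : M ≤ 2 ^ m) (hL : L ≤ 2 ^ m)
    (hne : log (A : ℝ) - log B + M * log a - L * log b ≠ 0) :
    1 / (2 : ℝ) ^ ((J + 1) * formBound (a + b) m) ≤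
      |log (A : ℝ) - log B + M * log a - L * log b| := by
  obtain ⟨H, hH⟩ : ∃ H, H = a + b := ⟨_, rfl⟩
  have := NeZero.of_pos hA
  have := NeZero.of_pos hB
  have : NeZero a := ⟨by omega⟩
  have : NeZero b := ⟨by omega⟩
  have hAle := log_le_mul hA (show a ≤ H by omega) hAJ
  have hBle := log_le_mul hB (show b ≤ H by omega) hBJ
  have hA0 : 0 ≤ log (A : ℝ) := log_natCast_nonneg A
  have hB0 : 0 ≤ log (B : ℝ) := log_natCast_nonneg B
  have ha0 : 0 ≤ log (a : ℝ) := log_natCast_nonneg a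
  have hb0 : 0 ≤ log (b : ℝ) := log_natCast_nonneg b
  have haH : log (a : ℝ) ≤ H := (log_le_self (Nat.cast_nonneg a)).trans (Nat.cast_le.2 (by omega))
  have hbH : log (b : ℝ) ≤ H := (log_le_self (Nat.cast_nonneg b)).trans (Nat.cast_le.2 (by omega))
  have hR : ((2 * H * (J + 1) : ℕ) : ℝ) = ((J + 1) * H : ℕ) + ((J + 1) * H : ℕ) := by
    push_cast; ring
  have hAp : (0 : ℝ) < A := Nat.cast_pos.2 hA
  have hBp : (0 : ℝ) < B := Nat.cast_pos.2 hB
  have key := baker_last_height (K := ℚ) (d := 1) (Module.finrank_self ℚ).le (Rat.castHom ℂ)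
    (n := 2) (h := 2 * H) (m := m) (R := J + 1) (by omega)
    (α := ![(a : ℚ), (b : ℚ)]) (α₀ := (A : ℚ) * (B : ℚ)⁻¹) (fun i => ?_) ?_
    (l := ![((log (a : ℝ) : ℝ) : ℂ), ((log (b : ℝ) : ℝ) : ℂ)])
    (l₀ := ((log (A : ℝ) - log B : ℝ) : ℂ)) (fun i => ?_) ?_ (fun i => ?_) ?_
    (b := ![(M : ℤ), -(L : ℤ)]) (b₀ := 1) (fun i => ?_) ?_ one_ne_zero ?_
  · simp only [Fin.sum_univ_two, Matrix.cons_val_zero, Matrix.cons_val_one] at key
    rw [← hH, formBound]
    refine key.trans (le_of_eq ?_)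
    rw [show ((M : ℤ) : ℂ) * ((log (a : ℝ) : ℝ) : ℂ)
        + ((-(L : ℤ) : ℤ) : ℂ) * ((log (b : ℝ) : ℝ) : ℂ)
        + ((1 : ℤ) : ℂ) * ((log (A : ℝ) - log B : ℝ) : ℂ) =
        ((log (A : ℝ) - log B + M * log a - L * log b : ℝ) : ℂ) by push_cast; ring,
      Complex.norm_real, norm_eq_abs]
  · fin_cases i <;> simp [Rat.logHeight₁_natCast] <;> linarith
  · refine (Height.logHeight₁_mul_le _ _).trans ?_
    rw [Height.logHeight₁_inv, Rat.logHeight₁_natCast, Rat.logHeight₁_natCast, hR]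
    exact add_le_add hAle hBle
  · fin_cases i
    · show Complex.exp ((log (a : ℝ) : ℝ) : ℂ) = Rat.castHom ℂ (a : ℚ)
      rw [← Complex.ofReal_exp, exp_log (Nat.cast_pos.2 (by omega))]
      simp
    · show Complex.exp ((log (b : ℝ) : ℝ) : ℂ) = Rat.castHom ℂ (b : ℚ)
      rw [← Complex.ofReal_exp, exp_log (Nat.cast_pos.2 (by omega))]
      simp
  · rw [← Complex.ofReal_exp, exp_sub, exp_log hAp, exp_log hBp]
    simp [div_eq_mul_inv]
  · fin_cases i
    · show ‖((log (a : ℝ) : ℝ) : ℂ)‖ ≤ ((2 * H : ℕ) : ℝ)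
      rw [Complex.norm_real, norm_eq_abs, abs_of_nonneg ha0]
      push_cast
      linarith
    · show ‖((log (b : ℝ) : ℝ) : ℂ)‖ ≤ ((2 * H : ℕ) : ℝ)
      rw [Complex.norm_real, norm_eq_abs, abs_of_nonneg hb0]
      push_cast
      linarith
  · rw [Complex.norm_real, norm_eq_abs, abs_le, hR]
    constructor <;> linarith
  · fin_cases i <;> simp [hM, hL]
  · simpa using Nat.one_le_two_pow
  · simp only [Fin.sum_univ_two, Matrix.cons_val_zero, Matrix.cons_val_one]
    rw [show ((M : ℤ) : ℂ) * ((log (a : ℝ) : ℝ) : ℂ)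
        + ((-(L : ℤ) : ℤ) : ℂ) * ((log (b : ℝ) : ℝ) : ℂ)
        + ((1 : ℤ) : ℂ) * ((log (A : ℝ) - log B : ℝ) : ℂ) =
        ((log (A : ℝ) - log B + M * log a - L * log b : ℝ) : ℂ) by push_cast; ring]
    exact Complex.ofReal_ne_zero.2 hne

/-- An equation bounds the exponent by the size of the factors. -/
theorem exponent_le_of_eq {a b A B M L J : ℕ} (ha : 2 ≤ a) (hb : 2 ≤ b)
    (hind : ∀ i j : ℕ, a ^ i = b ^ j → i = 0 ∧ j = 0) (hA : 0 < A) (hB : 0 < B)
    (hAJ : A ≤ a ^ (J + 1)) (hBJ : B ≤ b ^ (J + 1)) (he : A * a ^ M = B * b ^ L) :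
    M ≤ 2 * (a + b) ^ 2 * (J + 1) := by
  obtain ⟨p, hp, hpb⟩ := Nat.exists_prime_and_dvd (show b ≠ 1 by omega)
  have hbp : 1 ≤ b.factorization p :=
    hp.factorization_pos_of_dvd (by omega) hpb
  obtain ⟨q, hq⟩ : ∃ q, a.factorization p * b.factorization q ≠
      a.factorization q * b.factorization p := by
    by_contra hall
    push Not at hall
    have h1 : a ^ b.factorization p = b ^ a.factorization p :=
      Nat.eq_of_factorization_eq (pow_ne_zero _ (by omega)) (pow_ne_zero _ (by omega)) fun q => by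
        simp only [Nat.factorization_pow, Finsupp.coe_smul, Pi.smul_apply, smul_eq_mul]
        rw [mul_comm, ← hall q]
    have := (hind _ _ h1).1
    omega
  have hv : ∀ r, (A.factorization r : ℤ) + M * a.factorization r =
      B.factorization r + L * b.factorization r := fun r => by
    have h1 := congrArg (fun x => x.factorization r) he
    simp only [Nat.factorization_mul hA.ne' (pow_ne_zero _ (show a ≠ 0 by omega)),
      Nat.factorization_mul hB.ne' (pow_ne_zero _ (show b ≠ 0 by omega)), Nat.factorization_pow,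
      Finsupp.coe_add, Finsupp.coe_smul, Pi.add_apply, Pi.smul_apply, smul_eq_mul] at h1
    exact_mod_cast h1
  have hsmall : ∀ {X x : ℕ}, 0 < X → x ≤ a + b → X ≤ x ^ (J + 1) → ∀ r,
      X.factorization r ≤ (a + b) * (J + 1) := fun {X x} hX hx hXx r => by
    by_cases hr : r.Prime
    · refine (Nat.pow_le_pow_iff_right one_lt_two).1 ((Nat.pow_le_pow_left hr.two_le _).trans
        ((Nat.ordProj_le r hX.ne').trans (hXx.trans ?_)))
      rw [pow_mul]
      exact Nat.pow_le_pow_left (hx.trans Nat.lt_two_pow_self.le) _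
    · simp [Nat.factorization_eq_zero_of_not_prime _ hr]
  have hbase : ∀ r, b.factorization r ≤ a + b := fun r =>
    (Nat.factorization_lt r (show b ≠ 0 by omega)).le.trans (by omega)
  have hmain : (M : ℤ) * ((a.factorization p : ℤ) * b.factorization q -
      a.factorization q * b.factorization p) =
      ((B.factorization p : ℤ) - A.factorization p) * b.factorization q -
        ((B.factorization q : ℤ) - A.factorization q) * b.factorization p := by
    linear_combination (b.factorization q : ℤ) * hv p - (b.factorization p : ℤ) * hv q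
  have hd : 1 ≤ |((a.factorization p : ℤ) * b.factorization q -
      a.factorization q * b.factorization p)| :=
    Int.one_le_abs (sub_ne_zero.2 (by exact_mod_cast hq))
  have h2 : ∀ r, |((B.factorization r : ℤ) - A.factorization r)| ≤ (((a + b) * (J + 1) : ℕ) : ℤ) :=
    fun r => by
      have h3 := hsmall hA (show a ≤ a + b by omega) hAJ r
      have h4 := hsmall hB (show b ≤ a + b by omega) hBJ r
      rw [abs_le]
      omega
  have h3 : |((B.factorization p : ℤ) - A.factorization p) * b.factorization q -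
      ((B.factorization q : ℤ) - A.factorization q) * b.factorization p| ≤
      ((2 * (a + b) ^ 2 * (J + 1) : ℕ) : ℤ) := by
    refine (abs_sub _ _).trans ?_
    rw [abs_mul, abs_mul, Nat.abs_cast, Nat.abs_cast]
    refine (add_le_add (mul_le_mul (h2 p) (Nat.cast_le.2 (hbase q)) (Nat.cast_nonneg _)
      (Nat.cast_nonneg _)) (mul_le_mul (h2 q) (Nat.cast_le.2 (hbase p)) (Nat.cast_nonneg _)
      (Nat.cast_nonneg _))).trans (le_of_eq ?_)
    push_cast
    ring
  rw [← hmain, abs_mul, Nat.abs_cast] at h3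
  exact_mod_cast (le_mul_of_one_le_right (Nat.cast_nonneg M) hd).trans h3

/-- The leading part of an expansion with a gap. -/
theorem split {a n J J' : ℕ} (ha : 2 ≤ a) (hn : n ≠ 0) (hJ : J ≤ J') (hJ' : J' ≤ Nat.log a n)
    (hgap : ∀ i, Nat.log a n - J' ≤ i → i < Nat.log a n - J → n / a ^ i % a = 0) :
    ∃ A : ℕ, ∃ ε : ℝ, 0 < A ∧ A ≤ a ^ (J + 1) ∧ 0 ≤ ε ∧ ε ≤ 1 / 2 ^ J' ∧ 0 ≤ ε - log (1 + ε) ∧
      0 ≤ log (1 + ε) ∧ log (n : ℝ) =
        log (A : ℝ) + ((Nat.log a n - J : ℕ) : ℝ) * log a + log (1 + ε) := by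
  obtain ⟨M, hM⟩ : ∃ M, M = Nat.log a n - J := ⟨_, rfl⟩
  rw [← hM] at hgap ⊢
  obtain ⟨E, hE⟩ : ∃ E, E = n % a ^ M := ⟨_, rfl⟩
  obtain ⟨A, hA⟩ : ∃ A, A = n / a ^ M := ⟨_, rfl⟩
  have hsplit : n = A * a ^ M + E := by rw [hA, hE, Nat.div_add_mod']
  have hEs : E < a ^ (Nat.log a n - J') := hE ▸ mod_lt_of_gap ha M hgap
  have hlow : a ^ J ≤ A := by
    rw [hA, Nat.le_div_iff_mul_le (pow_pos (by omega) _), ← pow_add,
      show J + M = Nat.log a n by omega]
    exact Nat.pow_log_le_self a hn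
  have hA0 : 0 < A := (pow_pos (by omega) _).trans_le hlow
  have hAJ : A ≤ a ^ (J + 1) := by
    rw [hA]
    refine (Nat.div_lt_of_lt_mul ?_).le
    rw [← pow_add, show M + (J + 1) = Nat.log a n + 1 by omega]
    exact Nat.lt_pow_succ_log_self ha n
  have hEA : E * 2 ^ J' ≤ A * a ^ M := by
    calc E * 2 ^ J' ≤ a ^ (Nat.log a n - J') * a ^ J' :=
          Nat.mul_le_mul hEs.le (Nat.pow_le_pow_left ha _)
      _ = a ^ J * a ^ M := by
          rw [← pow_add, ← pow_add]; congr 1; omega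
      _ ≤ A * a ^ M := Nat.mul_le_mul_right _ hlow
  have hpos : (0 : ℝ) < (A : ℝ) * (a : ℝ) ^ M := by
    have : 0 < A * a ^ M := Nat.mul_pos hA0 (pow_pos (by omega) _)
    exact_mod_cast this
  obtain ⟨ε, hε⟩ : ∃ ε : ℝ, ε = (E : ℝ) / ((A : ℝ) * (a : ℝ) ^ M) := ⟨_, rfl⟩
  have hε0 : 0 ≤ ε := by rw [hε]; positivity
  refine ⟨A, ε, hA0, hAJ, hε0, ?_, ?_, log_nonneg (by linarith), ?_⟩
  · rw [hε, div_le_div_iff₀ hpos (by positivity), one_mul]
    exact_mod_cast hEA
  · linarith [log_le_sub_one_of_pos (show 0 < 1 + ε by linarith)]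
  · have h1 : (n : ℝ) = (A : ℝ) * (a : ℝ) ^ M * (1 + ε) := by
      rw [hε, mul_add, mul_one, mul_div_cancel₀ _ hpos.ne']
      exact_mod_cast hsplit
    rw [h1, log_mul hpos.ne' (by linarith), log_mul (by exact_mod_cast hA0.ne')
      (pow_ne_zero _ (by exact_mod_cast (show a ≠ 0 by omega))), log_pow]

/-- **The step**: one of the lengths is below a power of the ratio. -/
theorem length_lt {a b n m : ℕ} (ha : 2 ≤ a) (hb : 2 ≤ b)
    (hind : ∀ i j : ℕ, a ^ i = b ^ j → i = 0 ∧ j = 0) (hn : n ≠ 0)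
    (hma : Nat.log a n ≤ 2 ^ m) (hmb : Nat.log b n ≤ 2 ^ m) :
    Nat.log a n < gapRatio a b m ^ (nonzeroCount a n + nonzeroCount b n - 1) ∨
      Nat.log b n < gapRatio a b m ^ (nonzeroCount a n + nonzeroCount b n - 1) := by
  by_contra hc
  push Not at hc
  obtain ⟨P, hP⟩ : ∃ P, P = gapRatio a b m := ⟨_, rfl⟩
  obtain ⟨Q, hQ⟩ : ∃ Q, Q = formBound (a + b) m := ⟨_, rfl⟩
  have hP2 : 2 ≤ P := by rw [hP, gapRatio]; omega
  have hPQ : P = 2 * Q + 4 * (a + b) ^ 2 + 4 := by rw [hP, gapRatio, hQ]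
  rw [← hP] at hc
  obtain ⟨j, hj, hga, hgb⟩ := exists_gap ha hb hn hP2
  obtain ⟨J, hJ⟩ : ∃ J, J = P ^ j := ⟨_, rfl⟩
  have hJ1 : 1 ≤ J := hJ ▸ Nat.one_le_pow _ _ (by omega)
  have hJ' : P ^ (j + 1) = P * J := by rw [hJ, pow_succ']
  have htop : P * J ≤ P ^ (nonzeroCount a n + nonzeroCount b n - 1) :=
    hJ' ▸ Nat.pow_le_pow_right (by omega) hj
  rw [hJ', ← hJ] at hga hgb
  obtain ⟨A, ε, hA, hAJ, hε0, hε, hε1, hε2, hlA⟩ :=
    split ha hn (Nat.le_mul_of_pos_left J (by omega)) (htop.trans hc.1) hga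
  obtain ⟨B, δ, hB, hBJ, hδ0, hδ, hδ1, hδ2, hlB⟩ :=
    split hb hn (Nat.le_mul_of_pos_left J (by omega)) (htop.trans hc.2) hgb
  have hup : |log (A : ℝ) - log B + ((Nat.log a n - J : ℕ) : ℝ) * log a -
      ((Nat.log b n - J : ℕ) : ℝ) * log b| ≤ 1 / 2 ^ (P * J) := by
    rw [abs_le]
    constructor <;> linarith
  rcases eq_or_ne (log (A : ℝ) - log B + ((Nat.log a n - J : ℕ) : ℝ) * log a -
      ((Nat.log b n - J : ℕ) : ℝ) * log b) 0 with h0 | h0
  · have he : A * a ^ (Nat.log a n - J) = B * b ^ (Nat.log b n - J) := by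
      have hAp : (0 : ℝ) < A := Nat.cast_pos.2 hA
      have hBp : (0 : ℝ) < B := Nat.cast_pos.2 hB
      have hap : (0 : ℝ) < a := Nat.cast_pos.2 (by omega)
      have hbp : (0 : ℝ) < b := Nat.cast_pos.2 (by omega)
      have h1 : log ((A : ℝ) * (a : ℝ) ^ (Nat.log a n - J)) =
          log ((B : ℝ) * (b : ℝ) ^ (Nat.log b n - J)) := by
        rw [log_mul hAp.ne' (pow_pos hap _).ne', log_mul hBp.ne' (pow_pos hbp _).ne', log_pow,
          log_pow]
        linarith
      have h2 := log_injOn_pos (Set.mem_Ioi.2 (mul_pos hAp (pow_pos hap _)))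
        (Set.mem_Ioi.2 (mul_pos hBp (pow_pos hbp _))) h1
      exact_mod_cast h2
    have hM := exponent_le_of_eq ha hb hind hA hB hAJ hBJ he
    have h1 : 2 * (a + b) ^ 2 * (J + 1) ≤ 4 * (a + b) ^ 2 * J := by
      calc 2 * (a + b) ^ 2 * (J + 1) ≤ 2 * (a + b) ^ 2 * (2 * J) :=
            Nat.mul_le_mul_left _ (by omega)
        _ = _ := by ring
    have h2 : P * J = 2 * Q * J + 4 * (a + b) ^ 2 * J + 4 * J := by rw [hPQ]; ring
    have h3 := htop.trans hc.1
    omega
  · have h1 := (form_lower ha hb hA hB hAJ hBJ ((Nat.sub_le _ _).trans hma)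
      ((Nat.sub_le _ _).trans hmb) h0).trans hup
    rw [← hQ, div_le_div_iff₀ (by positivity) (by positivity), one_mul, one_mul] at h1
    have h2 : P * J ≤ (J + 1) * Q := (Nat.pow_le_pow_iff_right one_lt_two).1 (by exact_mod_cast h1)
    have h3 : (J + 1) * Q ≤ 2 * J * Q := Nat.mul_le_mul_right _ (by omega)
    have h4 : P * J = 2 * J * Q + 4 * (a + b) ^ 2 * J + 4 * J := by rw [hPQ]; ring
    omega

end FA.StewartDigits

end
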