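import Fermat.Agent.StewartDigits.Form
import Fermat.Agent.BakerExplicit.Applications

/-!
# Stewart's theorem on the digits in two bases
-/

set_option autoImplicit false

noncomputable section

namespace FA.StewartDigits

open Real BakerLastHeight

/-- The exponent per nonzero digit. -/
def digitKappa : ℕ := lastHeightKappa 2

/-- The constant for the bases `a`, `b`. -/
def digitConst (a b : ℕ) : ℕ :=
  (a + b) * (4 * (a + b) ^ 2 + 6) * lastHeightConst 2 1 * (2 * (a + b) + 2)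

/-- The constant for the powers of `a` in base `b`. -/
def powerConst (a b : ℕ) : ℕ := digitConst a b * (a + 2)

/-- An explicit bound in the number of nonzero digits. -/
def digitBound (a b k : ℕ) : ℕ :=
  2 * (2 * (digitKappa * (2 * k) + 1)) ^ (2 * (digitKappa * (2 * k) + 1)) *
    (digitConst a b ^ (digitKappa * (2 * k) + 1)) ^ 2 + 1

theorem lastHeight_facts (n d : ℕ) : 1 ≤ lastHeightConst n d ∧ 1 ≤ lastHeightKappa n := by
  have h1 := coreKappa_facts (n + 1)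
  have h2 := Nat.two_pow_pos (descExp (n + 1) d)
  exact ⟨by rw [lastHeightConst, descConst]; omega, by rw [lastHeightKappa]; omega⟩

theorem digitKappa_pos : 1 ≤ digitKappa := (lastHeight_facts 2 1).2

theorem digitConst_pos {a b : ℕ} (ha : 2 ≤ a) : 1 ≤ digitConst a b :=
  Nat.mul_pos (Nat.mul_pos (Nat.mul_pos (by omega) (Nat.succ_pos _)) (lastHeight_facts 2 1).1)
    (Nat.succ_pos _)

theorem mul_ratio_le {H c κ m : ℕ} (hH : 1 ≤ H) (hc : 1 ≤ c) (hκ : 1 ≤ κ) (hm : 1 ≤ m) :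
    H * (2 * (c * (2 * H + m + 1)) ^ κ + 4 * H ^ 2 + 4) ≤
      (H * (4 * H ^ 2 + 6) * c * (2 * H + 2) * m) ^ κ := by
  have h1 : 2 * H + m + 1 ≤ (2 * H + 2) * m := by nlinarith
  have h2 : 1 ≤ (c * ((2 * H + 2) * m)) ^ κ :=
    Nat.one_le_pow _ _ (Nat.mul_pos hc (Nat.mul_pos (by omega) hm))
  calc H * (2 * (c * (2 * H + m + 1)) ^ κ + 4 * H ^ 2 + 4)
      ≤ H * (4 * H ^ 2 + 6) * (c * ((2 * H + 2) * m)) ^ κ := by
        rw [mul_assoc]
        refine Nat.mul_le_mul_left _ ?_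
        have h3 := Nat.pow_le_pow_left (Nat.mul_le_mul_left c h1) κ
        nlinarith
    _ ≤ (H * (4 * H ^ 2 + 6)) ^ κ * (c * ((2 * H + 2) * m)) ^ κ :=
        Nat.mul_le_mul_right _ (Nat.le_self_pow (by omega) _)
    _ = _ := by rw [← mul_pow]; ring_nf

theorem mul_gapRatio_le {a b m : ℕ} (ha : 2 ≤ a) (hm : 1 ≤ m) :
    (a + b) * gapRatio a b m ≤ (digitConst a b * m) ^ digitKappa :=
  mul_ratio_le (by omega) (lastHeight_facts 2 1).1 (lastHeight_facts 2 1).2 hm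

theorem nonzeroCount_pos {a n : ℕ} (ha : 2 ≤ a) (hn : n ≠ 0) : 1 ≤ nonzeroCount a n := by
  rw [← card_digitPos ha]
  exact Finset.card_pos.2 ⟨_, log_mem_digitPos ha hn⟩

/-- **Stewart**: few nonzero digits in two bases bound the number. -/
theorem two_bases {a b : ℕ} (ha : 2 ≤ a) (hb : 2 ≤ b)
    (hind : ∀ i j : ℕ, a ^ i = b ^ j → i = 0 ∧ j = 0) (n : ℕ) :
    Nat.log 2 n ≤ (digitConst a b * (Nat.log 2 (Nat.log 2 n) + 1)) ^
      (digitKappa * (nonzeroCount a n + nonzeroCount b n)) := by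
  rcases eq_or_ne n 0 with rfl | hn
  · simp
  obtain ⟨Y, hY⟩ : ∃ Y, Y = Nat.log 2 n := ⟨_, rfl⟩
  obtain ⟨m, hm⟩ : ∃ m, m = Nat.log 2 Y + 1 := ⟨_, rfl⟩
  rw [← hY, ← hm]
  have hYm : Y ≤ 2 ^ m := hm ▸ (Nat.lt_pow_succ_log_self one_lt_two Y).le
  have hla : Nat.log a n ≤ Y := hY ▸ Nat.log_anti_left one_lt_two ha
  have hlb : Nat.log b n ≤ Y := hY ▸ Nat.log_anti_left one_lt_two hb
  have hlt := length_lt ha hb hind hn (hla.trans hYm) (hlb.trans hYm)
  have hX := mul_gapRatio_le (b := b) ha (show 1 ≤ m by omega)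
  have ha1 := nonzeroCount_pos ha hn
  have hb1 := nonzeroCount_pos hb hn
  obtain ⟨K, hK⟩ : ∃ K, K = nonzeroCount a n + nonzeroCount b n - 1 := ⟨_, rfl⟩
  rw [← hK] at hlt
  have hsize : ∀ c, 2 ≤ c → c ≤ a + b → Nat.log c n < gapRatio a b m ^ K →
      Y ≤ ((a + b) * gapRatio a b m) ^ K := fun c hc hcH hl => by
    have h1 : 2 ^ Y < 2 ^ ((a + b) * gapRatio a b m ^ K) := by
      calc 2 ^ Y ≤ n := hY ▸ Nat.pow_log_le_self 2 hn
        _ < c ^ (Nat.log c n + 1) := Nat.lt_pow_succ_log_self hc n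
        _ ≤ (2 ^ (a + b)) ^ (Nat.log c n + 1) :=
            Nat.pow_le_pow_left (hcH.trans Nat.lt_two_pow_self.le) _
        _ ≤ (2 ^ (a + b)) ^ (gapRatio a b m ^ K) := Nat.pow_le_pow_right (Nat.two_pow_pos _) hl
        _ = _ := by rw [← pow_mul]
    refine ((Nat.pow_lt_pow_iff_right one_lt_two).1 h1).le.trans ?_
    rw [mul_pow]
    exact Nat.mul_le_mul_right _ (Nat.le_self_pow (by omega) _)
  have hYle : Y ≤ ((a + b) * gapRatio a b m) ^ K := by
    rcases hlt with h | h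
    exacts [hsize a ha (by omega) h, hsize b hb (by omega) h]
  refine hYle.trans ((Nat.pow_le_pow_left hX K).trans ?_)
  rw [← pow_mul]
  exact Nat.pow_le_pow_right (Nat.mul_pos (digitConst_pos ha) (by omega))
    (Nat.mul_le_mul_left _ (by omega))

/-- **Effective Senge–Straus.** -/
theorem few_digits_bounded {a b k : ℕ} (ha : 2 ≤ a) (hb : 2 ≤ b)
    (hind : ∀ i j : ℕ, a ^ i = b ^ j → i = 0 ∧ j = 0) {n : ℕ} (h1 : nonzeroCount a n ≤ k)
    (h2 : nonzeroCount b n ≤ k) : n < 2 ^ digitBound a b k := by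
  obtain ⟨q, hq⟩ : ∃ q, q = digitKappa * (2 * k) + 1 := ⟨_, rfl⟩
  obtain ⟨C, hC⟩ : ∃ C, C = digitConst a b := ⟨_, rfl⟩
  have hC1 : 1 ≤ C := hC ▸ digitConst_pos ha
  have h := two_bases ha hb hind n
  rw [← hC] at h
  have h3 : Nat.log 2 n ≤ C ^ q * (Nat.log 2 (Nat.log 2 n) + 1) ^ q := by
    rw [← mul_pow]
    refine h.trans (Nat.pow_le_pow_right (Nat.mul_pos hC1 (Nat.succ_pos _)) ?_)
    rw [hq]
    exact (Nat.mul_le_mul_left _ (by omega)).trans (Nat.le_succ _)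
  have h4 := BakerExplicit.le_of_le_add_mul_log_pow (u := 0) (show 1 ≤ q by omega)
    (h3.trans (Nat.le_add_left _ 0))
  refine (Nat.lt_pow_succ_log_self one_lt_two n).trans_le (Nat.pow_le_pow_right two_pos ?_)
  rw [digitBound, ← hq, ← hC]
  omega

theorem nonzeroCount_pow {a : ℕ} (ha : 2 ≤ a) (e : ℕ) : nonzeroCount a (a ^ e) = 1 := by
  rw [nonzeroCount, ← mul_one (a ^ e), Nat.digits_base_pow_mul ha one_pos,
    Nat.digits_def' ha one_pos]
  simp [Nat.mod_eq_of_lt ha, Nat.div_eq_of_lt ha, List.filter_append]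

/-- **The powers of one base in the other.** -/
theorem power_digits {a b : ℕ} (ha : 2 ≤ a) (hb : 2 ≤ b)
    (hind : ∀ i j : ℕ, a ^ i = b ^ j → i = 0 ∧ j = 0) (e : ℕ) :
    e ≤ (powerConst a b * (Nat.log 2 e + 1)) ^ (digitKappa * (nonzeroCount b (a ^ e) + 1)) := by
  obtain ⟨Y, hY⟩ : ∃ Y, Y = Nat.log 2 (a ^ e) := ⟨_, rfl⟩
  have hYe : e ≤ Y := hY ▸ Nat.le_log_of_pow_le one_lt_two (Nat.pow_le_pow_left ha e)
  have h := two_bases ha hb hind (a ^ e)
  rw [nonzeroCount_pow ha, ← hY, add_comm 1] at h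
  refine hYe.trans (h.trans (Nat.pow_le_pow_left ?_ _))
  rw [powerConst, mul_assoc]
  refine Nat.mul_le_mul_left _ ?_
  have hYa : Y ≤ a * e := by
    refine (Nat.pow_le_pow_iff_right one_lt_two).1 ?_
    rw [pow_mul]
    exact (hY ▸ Nat.pow_log_le_self 2 (pow_ne_zero e (by omega))).trans
      (Nat.pow_le_pow_left Nat.lt_two_pow_self.le e)
  have hlog : Nat.log 2 Y < a + Nat.log 2 e + 1 := by
    refine Nat.log_lt_of_lt_pow' (by omega) (hYa.trans_lt ?_)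
    rw [show a + Nat.log 2 e + 1 = a + (Nat.log 2 e + 1) by ring, pow_add]
    exact (Nat.mul_le_mul_right _ Nat.lt_two_pow_self.le).trans_lt
      (Nat.mul_lt_mul_of_pos_left (Nat.lt_pow_succ_log_self one_lt_two e) (Nat.two_pow_pos a))
  nlinarith

theorem nonzeroCount_le_sum (a n : ℕ) : nonzeroCount a n ≤ (Nat.digits a n).sum := by
  rw [nonzeroCount]
  induction Nat.digits a n with
  | nil => simp
  | cons x l ih => by_cases hx : x = 0 <;> simp [hx] at ih ⊢ <;> omega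

theorem log_two_bounds : (1 / 2 : ℝ) < log 2 ∧ log 2 < 1 :=
  ⟨by linarith [log_two_gt_d9], by linarith [log_two_lt_d9]⟩

/-- From the inequality to its logarithm. -/
theorem log_le_of_le_mul_pow {X D l N : ℕ} {u : ℝ} (hD : 1 ≤ D) (hl : 1 ≤ l) (hX : 1 ≤ X)
    (h : X ≤ (D * l) ^ N) (hu : (l : ℝ) ≤ u) :
    log (X : ℝ) ≤ N * (log (D : ℝ) + log u) := by
  have hDp : (0 : ℝ) < D := Nat.cast_pos.2 hD
  have hlp : (0 : ℝ) < l := Nat.cast_pos.2 hl
  have h1 : log (X : ℝ) ≤ log (((D : ℝ) * l) ^ N) :=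
    log_le_log (Nat.cast_pos.2 hX) (by exact_mod_cast h)
  rw [log_pow, log_mul hDp.ne' hlp.ne'] at h1
  refine h1.trans (mul_le_mul_of_nonneg_left ?_ (Nat.cast_nonneg _))
  linarith [log_le_log hlp hu]

theorem natLog_le (n : ℕ) : (Nat.log 2 n : ℝ) * log 2 ≤ log n := by
  rcases eq_or_ne n 0 with rfl | hn
  · simp
  · rw [← log_pow]
    exact log_le_log (by positivity) (by exact_mod_cast Nat.pow_log_le_self 2 hn)

/-- From a bound to Stewart's rate. -/
theorem rate_of_bound {D κ : ℕ} (hD : 1 ≤ D) (hκ : 1 ≤ κ) {K : ℕ → ℕ}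
    (hK : ∀ n, n ≠ 0 → 1 ≤ K n)
    (hbound : ∀ n, Nat.log 2 n ≤ (D * (Nat.log 2 (Nat.log 2 n) + 1)) ^ (κ * K n)) :
    ∃ C : ℝ, 0 < C ∧ ∀ n : ℕ, 16 ≤ n → log (log n) / (log (log (log n)) + C) ≤
      C * (K n : ℝ) := by
  have hκ1 : (1 : ℝ) ≤ κ := by exact_mod_cast hκ
  have hlD : 0 ≤ log (D : ℝ) := log_natCast_nonneg D
  refine ⟨(κ : ℝ) + log D + 5, by linarith, fun n hn => ?_⟩
  obtain ⟨hl2, hl2'⟩ := log_two_bounds
  have hn4 : (16 : ℝ) ≤ n := by exact_mod_cast hn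
  have hlog : exp 1 ≤ log n := by
    have h1 : log ((2 : ℝ) ^ 4) ≤ log n := log_le_log (by norm_num) (by linarith)
    rw [log_pow] at h1
    push_cast at h1
    linarith [exp_one_lt_d9, log_two_gt_d9]
  have hlpos : 0 < log (n : ℝ) := (exp_pos 1).trans_le hlog
  obtain ⟨v, hv⟩ : ∃ v : ℝ, v = log (log n) := ⟨_, rfl⟩
  have hv1 : 1 ≤ v := by
    have := log_le_log (exp_pos 1) hlog
    rwa [log_exp, ← hv] at this
  rw [← hv]
  have hw : 0 ≤ log v := log_nonneg hv1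
  rw [div_le_iff₀ (by linarith)]
  obtain ⟨Y, hY⟩ : ∃ Y, Y = Nat.log 2 n := ⟨_, rfl⟩
  have hY1 : 1 ≤ Y := hY ▸ Nat.le_log_of_pow_le one_lt_two (by omega)
  have hYp : (1 : ℝ) ≤ Y := by exact_mod_cast hY1
  have h := hbound n
  rw [← hY] at h
  have hvY : v ≤ 1 + log (Y : ℝ) := by
    have h1 : log (n : ℝ) ≤ 2 * Y := by
      have h2 : log (n : ℝ) ≤ log ((2 : ℝ) ^ (Y + 1)) := log_le_log (by linarith)
        (by exact_mod_cast hY ▸ (Nat.lt_pow_succ_log_self one_lt_two n).le)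
      rw [log_pow] at h2
      push_cast at h2
      nlinarith
    have h2 := log_le_log hlpos h1
    rw [log_mul two_ne_zero (by linarith), ← hv] at h2
    linarith
  have hsmall : ((Nat.log 2 Y + 1 : ℕ) : ℝ) ≤ 5 * v := by
    have h1 := natLog_le Y
    have h2 : (Y : ℝ) ≤ 2 * log n := by
      have := natLog_le n
      rw [← hY] at this
      nlinarith
    have h3 := log_le_log (by linarith) h2
    rw [log_mul two_ne_zero hlpos.ne', ← hv] at h3
    have h4 : (0 : ℝ) ≤ (Nat.log 2 Y : ℝ) := Nat.cast_nonneg _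
    push_cast
    nlinarith
  have hn0 : n ≠ 0 := by omega
  have hK1 : (1 : ℝ) ≤ K n := by exact_mod_cast hK n hn0
  obtain ⟨k, hk⟩ : ∃ k, k = K n := ⟨_, rfl⟩
  rw [← hk] at h hK1 ⊢
  have hm := log_le_of_le_mul_pow hD (by omega) hY1 h hsmall
  rw [log_mul (by norm_num) (by linarith), Nat.cast_mul] at hm
  have h5 : log (5 : ℝ) ≤ 4 := by linarith [log_le_sub_one_of_pos (show (0 : ℝ) < 5 by norm_num)]
  have hκK : (1 : ℝ) ≤ κ * k := one_le_mul_of_one_le_of_one_le hκ1 hK1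
  calc v ≤ κ * k + κ * k * (log D + (4 + log v)) := by nlinarith
    _ = κ * k * (log D + 5 + log v) := by ring
    _ ≤ ((κ : ℝ) + log D + 5) * k * (log D + 5 + log v) := by
        gcongr; linarith
    _ ≤ ((κ : ℝ) + log D + 5) * k * (log v + ((κ : ℝ) + log D + 5)) := by
        refine mul_le_mul_of_nonneg_left (by linarith) ?_
        positivity

/-- From a bound to the rate for powers. -/
theorem power_rate_of_bound {D κ : ℕ} (hD : 1 ≤ D) (hκ : 1 ≤ κ) {N S : ℕ → ℕ}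
    (hNS : ∀ e, N e ≤ S e) (hbound : ∀ e, e ≤ (D * (Nat.log 2 e + 1)) ^ (κ * (N e + 1))) :
    ∃ C : ℝ, 0 < C ∧ ∀ e : ℕ, 3 ≤ e →
      log e / (log (log e) + C) ≤ C * ((N e + 1 : ℕ) : ℝ) ∧
      log e / (log (log e) + C) ≤ C * ((S e + 1 : ℕ) : ℝ) := by
  have hκ1 : (1 : ℝ) ≤ κ := by exact_mod_cast hκ
  have hlD : 0 ≤ log (D : ℝ) := log_natCast_nonneg D
  refine ⟨(κ : ℝ) + log D + 2, by linarith, fun e he => ?_⟩
  have hmain : log e / (log (log e) + ((κ : ℝ) + log D + 2)) ≤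
      ((κ : ℝ) + log D + 2) * ((N e + 1 : ℕ) : ℝ) := by
    obtain ⟨hl2, hl2'⟩ := log_two_bounds
    have he3 : (3 : ℝ) ≤ e := by exact_mod_cast he
    have hle : 1 ≤ log (e : ℝ) := by
      have := log_le_log (exp_pos 1) (show exp 1 ≤ (e : ℝ) by linarith [exp_one_lt_d9])
      rwa [log_exp] at this
    obtain ⟨v, hv⟩ : ∃ v : ℝ, v = log e := ⟨_, rfl⟩
    rw [← hv] at hle ⊢
    have hw : 0 ≤ log v := log_nonneg hle
    rw [div_le_iff₀ (by linarith)]
    have h := hbound e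
    obtain ⟨K, hK⟩ : ∃ K, K = N e + 1 := ⟨_, rfl⟩
    rw [← hK] at h ⊢
    have hsmall : ((Nat.log 2 e + 1 : ℕ) : ℝ) ≤ 3 * v := by
      have h1 := natLog_le e
      have h4 : (0 : ℝ) ≤ (Nat.log 2 e : ℝ) := Nat.cast_nonneg _
      push_cast
      nlinarith
    have hm := log_le_of_le_mul_pow hD (by omega)
      (by omega) h hsmall
    rw [log_mul (by norm_num) (by linarith), ← hv, Nat.cast_mul] at hm
    have h3 : log (3 : ℝ) ≤ 2 := by linarith [log_le_sub_one_of_pos (show (0 : ℝ) < 3 by norm_num)]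
    calc v ≤ κ * K * (log D + (2 + log v)) :=
          hm.trans (mul_le_mul_of_nonneg_left (by linarith) (by positivity))
      _ ≤ ((κ : ℝ) + log D + 2) * K * (log D + (2 + log v)) := by
          gcongr; linarith
      _ ≤ ((κ : ℝ) + log D + 2) * K * (log v + ((κ : ℝ) + log D + 2)) := by
          refine mul_le_mul_of_nonneg_left (by linarith) ?_
          positivity
  refine ⟨hmain, hmain.trans (mul_le_mul_of_nonneg_left (Nat.cast_le.2 ?_) (by linarith))⟩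
  exact Nat.add_le_add_right (hNS e) 1

/-- **Stewart's rate.** -/
theorem two_bases_rate {a b : ℕ} (ha : 2 ≤ a) (hb : 2 ≤ b)
    (hind : ∀ i j : ℕ, a ^ i = b ^ j → i = 0 ∧ j = 0) :
    ∃ C : ℝ, 0 < C ∧ ∀ n : ℕ, 16 ≤ n → log (log n) / (log (log (log n)) + C) ≤
      C * ((nonzeroCount a n + nonzeroCount b n : ℕ) : ℝ) :=
  rate_of_bound (digitConst_pos ha) digitKappa_pos
    (fun _ hn => (nonzeroCount_pos ha hn).trans (Nat.le_add_right _ _)) (two_bases ha hb hind)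

/-- **The rate for powers.** -/
theorem power_rate {a b : ℕ} (ha : 2 ≤ a) (hb : 2 ≤ b)
    (hind : ∀ i j : ℕ, a ^ i = b ^ j → i = 0 ∧ j = 0) :
    ∃ C : ℝ, 0 < C ∧ ∀ e : ℕ, 3 ≤ e →
      log e / (log (log e) + C) ≤ C * ((nonzeroCount b (a ^ e) + 1 : ℕ) : ℝ) ∧
      log e / (log (log e) + C) ≤ C * (((Nat.digits b (a ^ e)).sum + 1 : ℕ) : ℝ) :=
  power_rate_of_bound (Nat.mul_pos (digitConst_pos ha) (Nat.succ_pos _)) digitKappa_pos
    (fun e => nonzeroCount_le_sum b (a ^ e)) (power_digits ha hb hind)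

/-- `2` is independent of `3` and of `10`. -/
theorem two_independent {b p : ℕ} (hp : p.Prime) (hpb : p ∣ b) (hp2 : ¬ p ∣ 2) :
    ∀ i j : ℕ, 2 ^ i = b ^ j → i = 0 ∧ j = 0 := fun i j hij => by
  rcases eq_or_ne j 0 with rfl | hj
  · refine ⟨?_, rfl⟩
    rw [pow_zero, Nat.pow_eq_one] at hij
    exact hij.resolve_left (by norm_num)
  · exact absurd (hp.dvd_of_dvd_pow (hij ▸ dvd_pow hpb hj)) hp2

end FA.StewartDigits

end
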